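import Mathlib.Algebra.MonoidAlgebra.Basic
import Mathlib.Data.Fintype.Perm
import Mathlib.Data.Nat.Choose.Sum
import Mathlib.LinearAlgebra.Multilinear.Basic

/-!
# Multilinear identities

Every polynomial identity yields a multilinear one of at most the same degree, and a ring with a
multilinear identity of degree `d` acts densely on at most `d / 2` independent vectors.
-/

set_option autoImplicit false

noncomputable section

open Equiv

namespace Fermat.Agent.KaplanskyPI

variable {F : Type*} [CommRing F]

/-- The algebra satisfies `∑ σ, a σ • x (σ 0) * ⋯ * x (σ (d - 1)) = 0`. -/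
def IsMultilinearIdentity (A : Type*) [Ring A] [Algebra F A] {d : ℕ}
    (a : Perm (Fin d) → F) : Prop :=
  ∀ x : Fin d → A, ∑ σ : Perm (Fin d), a σ • (List.ofFn fun i => x (σ i)).prod = 0

section multilinearize

variable {A : Type*} [Ring A] [Algebra F A] {X : Type*}

/-- A polynomial identity of degree at most `d` gives a multilinear one. -/
theorem exists_isMultilinearIdentity (f : MonoidAlgebra F (FreeMonoid X)) (hf : f ≠ 0) {d : ℕ}
    (hdeg : ∀ w ∈ f.coeff.support, FreeMonoid.length w ≤ d)
    (hid : ∀ φ : X → A, MonoidAlgebra.lift F A (FreeMonoid X) (FreeMonoid.lift φ) f = 0) :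
    ∃ e ≤ d, ∃ a : Perm (Fin e) → F, a ≠ 0 ∧ IsMultilinearIdentity A a := by
  classical
  obtain ⟨w, hw, hmax⟩ := Finset.exists_max_image f.coeff.support (fun w => FreeMonoid.length w)
    (Finsupp.support_nonempty_iff.2 fun h => hf (MonoidAlgebra.ext h))
  set e := w.toList.length with he
  set π : Fin e → X := fun i => w.toList.get i with hπ
  let a : Perm (Fin e) → F := fun σ => f.coeff (FreeMonoid.ofList (List.ofFn fun i => π (σ i)))
  refine ⟨e, hdeg w hw, a, fun h => Finsupp.mem_support_iff.1 hw ?_, fun x => ?_⟩
  · have h1 := congrFun h 1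
    simp only [a, hπ, Perm.one_apply, Pi.zero_apply] at h1
    rwa [show (List.ofFn fun i : Fin e => w.toList.get i) = w.toList from List.ofFn_get _,
      FreeMonoid.ofList_toList] at h1
  let φ : Finset (Fin e) → X → A := fun U y => ∑ j ∈ (Uᶜ).filter (fun j => π j = y), x j
  have hexp : ∀ (U : Finset (Fin e)) (v : FreeMonoid X),
      FreeMonoid.lift (φ U) v = ∑ g ∈ Fintype.piFinset (fun i : Fin v.toList.length =>
        (Uᶜ).filter (fun j => π j = v.toList.get i)), (List.ofFn fun i => x (g i)).prod := by
    intro U v
    have h := (MultilinearMap.mkPiAlgebraFin ℤ v.toList.length A).map_sum_finset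
      (fun _ j => x j) (fun i => (Uᶜ).filter (fun j => π j = v.toList.get i))
    simp only [MultilinearMap.mkPiAlgebraFin_apply] at h
    rw [FreeMonoid.lift_apply, ← h, ← List.ofFn_getElem_eq_map]
    rfl
  have hsum : ∀ v ∈ f.coeff.support,
      ∑ U : Finset (Fin e), (-1 : ℤ) ^ U.card • FreeMonoid.lift (φ U) v =
        ∑ σ : Perm (Fin e), if FreeMonoid.ofList (List.ofFn fun i => π (σ i)) = v
          then (List.ofFn fun i => x (σ i)).prod else 0 := by
    intro v hv
    set L := v.toList.length with hL
    set G := Fintype.piFinset fun i : Fin L =>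
      Finset.univ.filter (fun j => π j = v.toList.get i) with hG
    have hrw : ∀ U : Finset (Fin e), FreeMonoid.lift (φ U) v = ∑ g ∈ G,
        if U ⊆ (Finset.univ.image g)ᶜ then (List.ofFn fun i => x (g i)).prod else 0 := by
      intro U
      rw [hexp, ← Finset.sum_filter]
      refine Finset.sum_congr (Finset.ext fun g => ?_) fun _ _ => rfl
      simp only [Fintype.mem_piFinset, Finset.mem_filter, Finset.mem_compl, hG,
        Finset.mem_univ, true_and]
      refine ⟨fun h => ⟨fun i => (h i).2, fun j hj => ?_⟩, fun h i => ⟨fun hi => ?_, h.1 i⟩⟩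
      · simp only [Finset.mem_compl, Finset.mem_image, Finset.mem_univ, true_and]
        rintro ⟨i, rfl⟩
        exact (h i).1 hj
      · have := h.2 hi
        simp at this
    simp_rw [hrw, Finset.smul_sum, smul_ite, smul_zero]
    rw [Finset.sum_comm]
    have hie : ∀ g : Fin L → Fin e,
        (∑ U : Finset (Fin e), if U ⊆ (Finset.univ.image g)ᶜ
          then (-1 : ℤ) ^ U.card • (List.ofFn fun i => x (g i)).prod else 0) =
        if Function.Surjective g then (List.ofFn fun i => x (g i)).prod else 0 := by
      intro g
      rw [← Finset.sum_filter, ← Finset.sum_smul,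
        show Finset.univ.filter (fun U => U ⊆ (Finset.univ.image g)ᶜ) =
          ((Finset.univ.image g)ᶜ).powerset from Finset.ext fun U => by simp,
        Finset.sum_powerset_neg_one_pow_card, ite_smul, one_smul, zero_smul]
      refine if_congr ?_ rfl rfl
      rw [Finset.compl_eq_empty_iff, Finset.eq_univ_iff_forall]
      simp [Function.Surjective]
    rw [Finset.sum_congr rfl fun g _ => hie g, ← Finset.sum_filter, ← Finset.sum_filter]
    by_cases hLe : L = e
    · refine Finset.sum_bij (fun g hg => Equiv.ofBijective (g ∘ Fin.cast hLe.symm) ?_) ?_ ?_ ?_ ?_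
      · have hg := (Finset.mem_filter.1 hg).2
        have hs : Function.Surjective (g ∘ Fin.cast hLe.symm) :=
          hg.comp (finCongr hLe.symm).surjective
        exact ⟨Finite.injective_iff_surjective.2 hs, hs⟩
      · intro g hg
        rw [Finset.mem_filter]
        refine ⟨Finset.mem_univ _, FreeMonoid.toList.injective (List.ext_get ?_ fun n h1 h2 => ?_)⟩
        · simp [← hLe, hL]
        · have := Fintype.mem_piFinset.1 (Finset.mem_filter.1 hg).1 ⟨n, h2⟩
          simpa using (Finset.mem_filter.1 this).2
      · intro g hg g' hg' h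
        funext i
        have := DFunLike.congr_fun h (Fin.cast hLe i)
        simpa using this
      · intro σ hσ
        have hv' := (Finset.mem_filter.1 hσ).2
        refine ⟨σ ∘ Fin.cast hLe, Finset.mem_filter.2 ⟨Fintype.mem_piFinset.2 fun i => ?_,
          σ.surjective.comp (finCongr hLe).surjective⟩, Equiv.ext fun i => by simp⟩
        simp [← hv']
        rfl
      · intro g hg
        rw [List.ofFn_congr hLe]
        simp
    · rw [Finset.sum_eq_zero, Finset.sum_eq_zero]
      · intro σ hσ
        exact absurd (by rw [hL, ← (Finset.mem_filter.1 hσ).2]; simp) hLe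
      · intro g hg
        have hle := Fintype.card_le_of_surjective g (Finset.mem_filter.1 hg).2
        have : L ≤ e := hmax v hv
        simp only [Fintype.card_fin] at hle
        omega
  have hzero : ∀ U : Finset (Fin e),
      (∑ v ∈ f.coeff.support, f.coeff v • FreeMonoid.lift (φ U) v) = 0 := fun U => by
    rw [← hid (φ U), MonoidAlgebra.lift_apply]
    rfl
  calc ∑ σ : Perm (Fin e), a σ • (List.ofFn fun i => x (σ i)).prod
      = ∑ v ∈ f.coeff.support, f.coeff v • ∑ σ : Perm (Fin e),
          if FreeMonoid.ofList (List.ofFn fun i => π (σ i)) = v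
          then (List.ofFn fun i => x (σ i)).prod else 0 := by
        simp_rw [Finset.smul_sum, smul_ite, smul_zero]
        rw [Finset.sum_comm]
        refine Finset.sum_congr rfl fun σ _ => ?_
        rw [Finset.sum_ite_eq]
        split_ifs with h
        · rfl
        · rw [show a σ = 0 from Finsupp.notMem_support_iff.1 h, zero_smul]
    _ = ∑ v ∈ f.coeff.support, f.coeff v • ∑ U : Finset (Fin e),
          (-1 : ℤ) ^ U.card • FreeMonoid.lift (φ U) v :=
        Finset.sum_congr rfl fun v hv => by rw [hsum v hv]
    _ = 0 := by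
        simp_rw [Finset.smul_sum, smul_comm (f.coeff _) ((-1 : ℤ) ^ _)]
        rw [Finset.sum_comm]
        simp_rw [← Finset.smul_sum, hzero, smul_zero, Finset.sum_const_zero]

end multilinearize

/-- The staircase argument: a ring acting densely on `d / 2 + 1` vectors satisfies no identity
of degree `d`. -/
theorem not_multilinearIdentity_of_dense {S M : Type*} [Ring S] [AddCommGroup M] [Module S M]
    {d : ℕ} (c : Perm (Fin d) → S) (v : ℕ → M)
    (hdense : ∀ w : ℕ → M, ∃ s : S, ∀ i ≤ d / 2, s • v i = w i)
    {σ₀ : Perm (Fin d)} (hc : c σ₀ • v 0 ≠ 0)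
    (hid : ∀ x : Fin d → S, ∑ σ : Perm (Fin d), c σ * (List.ofFn fun i => x (σ i)).prod = 0) :
    False := by
  classical
  choose r hr using fun j : ℕ => hdense fun i => if i = (j + 1) / 2 then v (j / 2) else 0
  have key : ∀ l : List ℕ, ∀ e ≤ d / 2, (∀ j ∈ l, j < d) → (l.map r).prod • v e ≠ 0 →
      ∃ e' ≤ e, (l.map r).prod • v e = v e' ∧
        l.Pairwise (fun a b => (a + 1) / 2 ≤ b / 2) ∧ ∀ j ∈ l, e' ≤ j / 2 := by
    intro l
    induction l with
    | nil => intro e _ _ _; exact ⟨e, le_rfl, by simp, List.Pairwise.nil, by simp⟩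
    | cons a l ih =>
      intro e he hl h
      rw [List.map_cons, List.prod_cons, mul_smul] at h ⊢
      obtain ⟨e', he', heq, hpw, hle⟩ := ih e he (fun j hj => hl j (List.mem_cons_of_mem _ hj))
        fun h0 => h (by rw [h0, smul_zero])
      rw [heq, hr a e' (he'.trans he)] at h ⊢
      split_ifs at h ⊢ with ha
      · refine ⟨a / 2, by omega, rfl, List.pairwise_cons.2 ⟨fun b hb => ha ▸ hle b hb, hpw⟩,
          fun j hj => ?_⟩
        rcases List.mem_cons.1 hj with rfl | hj
        · exact le_rfl
        · have := hle j hj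
          omega
      · exact absurd rfl h
  have hrange : ∀ n j, j + n = d → ((List.range' j n).map r).prod • v (d / 2) = v (j / 2) := by
    intro n
    induction n with
    | zero => intro j hj; simp [show j = d by omega]
    | succ n ih =>
      intro j hj
      rw [List.range'_succ, List.map_cons, List.prod_cons, mul_smul, ih (j + 1) (by omega),
        hr j _ (by omega), if_pos rfl]
  have h := congrArg (· • v (d / 2)) (hid fun i => r (σ₀.symm i : ℕ))
  simp only [Finset.sum_smul, zero_smul] at h
  rw [Finset.sum_eq_single σ₀ (fun σ _ hσ => ?_) (by simp)] at h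
  · refine hc ?_
    rw [mul_smul] at h
    simp only [Equiv.symm_apply_apply] at h
    rwa [show (List.ofFn fun i : Fin d => r (i : ℕ)) = (List.range' 0 d).map r by
      refine List.ext_get (by simp) fun n h1 h2 => by simp, hrange d 0 (by omega)] at h
  · rw [mul_smul]
    have hl : (List.ofFn fun i => r (σ₀.symm (σ i) : ℕ)) =
        (List.ofFn fun i => (σ₀.symm (σ i) : ℕ)).map r := by
      rw [List.map_ofFn]; rfl
    rw [hl]
    by_contra hne
    obtain ⟨e', -, -, hpw, -⟩ := key _ (d / 2) le_rfl (fun j hj => by
      obtain ⟨i, rfl⟩ := List.mem_ofFn.1 hj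
      exact (σ₀.symm (σ i)).2) fun h0 => hne (by rw [h0, smul_zero])
    have hmono : StrictMono (σ.trans σ₀.symm) := fun i j hij => by
      have h1 := List.pairwise_ofFn.1 hpw hij
      rw [Fin.lt_def]
      have h2 : (σ₀.symm (σ i) : ℕ) ≠ σ₀.symm (σ j) := fun h2 =>
        hij.ne ((σ.trans σ₀.symm).injective (Fin.ext h2))
      simp only [Equiv.trans_apply]
      omega
    refine hσ (Equiv.ext fun i => ?_)
    have := congrFun ((hmono.range_inj strictMono_id).1 (by simp)) i
    exact σ₀.symm.injective (by simpa using this)

end Fermat.Agent.KaplanskyPI
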