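import Fermat.Agent.KaplanskyPI.Multilinear
import Mathlib.LinearAlgebra.Dimension.Constructions
import Mathlib.LinearAlgebra.FiniteDimensional.Basic
import Mathlib.LinearAlgebra.FreeModule.Finite.Matrix
import Mathlib.RingTheory.SimpleModule.Basic
import Mathlib.RingTheory.SimpleRing.Field

/-!
# The theorem of Kaplansky on primitive algebras with a polynomial identity
-/

set_option autoImplicit false

noncomputable section

open Equiv

namespace Fermat.Agent.KaplanskyPI

section span

variable {K V : Type*} [Field K] [AddCommGroup V] [Module K V] {d : ℕ}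

/-- A multilinear identity with coefficients on the left passes to the span of a set. -/
theorem identity_span (c : Perm (Fin d) → Module.End K V) (T : Set (Module.End K V))
    (h : ∀ x : Fin d → Module.End K V, (∀ i, x i ∈ T) →
      ∑ σ : Perm (Fin d), c σ * (List.ofFn fun i => x (σ i)).prod = 0)
    (x : Fin d → Module.End K V) (hx : ∀ i, x i ∈ Submodule.span K T) :
    ∑ σ : Perm (Fin d), c σ * (List.ofFn fun i => x (σ i)).prod = 0 := by
  classical
  let P : MultilinearMap K (fun _ : Fin d => Module.End K V) (Module.End K V) :=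
    ∑ σ : Perm (Fin d), (LinearMap.mulLeft K (c σ)).compMultilinearMap
      ((MultilinearMap.mkPiAlgebraFin K d (Module.End K V)).domDomCongr σ)
  have hP : ∀ y, P y = ∑ σ : Perm (Fin d), c σ * (List.ofFn fun i => y (σ i)).prod := fun y => by
    simp [P]
  suffices ∀ s : Finset (Fin d), ∀ y : Fin d → Module.End K V, (∀ i ∉ s, y i ∈ T) →
      (∀ i ∈ s, y i ∈ Submodule.span K T) → P y = 0 by
    rw [← hP]
    exact this Finset.univ x (by simp) fun i _ => hx i
  intro s
  induction s using Finset.induction with
  | empty => exact fun y hy _ => (hP y).trans (h y fun i => hy i (by simp))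
  | insert i s his ih =>
    intro y hy hys
    have hyi := hys i (Finset.mem_insert_self i s)
    rw [← Function.update_eq_self i y]
    generalize y i = z at hyi ⊢
    induction hyi using Submodule.span_induction with
    | mem z hz =>
      refine ih _ (fun j hj => ?_) fun j hj => ?_
      · rcases eq_or_ne j i with rfl | hji
        · simpa using hz
        · rw [Function.update_of_ne hji]; exact hy j (by simp [hji, hj])
      · rw [Function.update_of_ne (by rintro rfl; exact his hj)]
        exact hys j (Finset.mem_insert_of_mem hj)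
    | zero => exact P.map_update_zero y i
    | add z w _ _ hz hw => rw [P.map_update_add, hz, hw, add_zero]
    | smul r z _ hz => rw [P.map_update_smul, hz, smul_zero]

end span

section primitive

variable {F R M : Type*} [CommRing F] [Ring R] [Algebra F R] [AddCommGroup M] [Module R M]
  [IsSimpleModule R M] [FaithfulSMul R M] {K : Type*} [Field K] [Module K M]
  [SMulCommClass R K M] [SMulCommClass K R M] {d : ℕ} {a : Perm (Fin d) → F}

omit [FaithfulSMul R M] [SMulCommClass K R M] in
/-- A primitive algebra with a multilinear identity, seen over a maximal commutative subfield of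
its commutant: the module is finite of dimension at most `d / 2`. -/
theorem finite_and_finrank_le (hid : IsMultilinearIdentity R a) {σ₀ : Perm (Fin d)}
    (ha : IsUnit (a σ₀))
    (hmax : ∀ f : M →ₗ[R] M, (∀ (k : K) m, f (k • m) = k • f m) → ∃ k : K, ∀ m, f m = k • m) :
    Module.Finite K M ∧ Module.finrank K M ≤ d / 2 := by
  classical
  suffices hrank : Module.rank K M ≤ (d / 2 : ℕ) by
    have : Module.Finite K M :=
      Module.rank_lt_aleph0_iff.1 (hrank.trans_lt Cardinal.natCast_lt_aleph0)
    exact ⟨this, Module.finrank_le_of_rank_le hrank⟩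
  by_contra hlt
  obtain ⟨t, ht, hti⟩ : ∃ t : Finset M, d / 2 + 1 ≤ t.card ∧
      LinearIndependent K ((↑) : t → M) := by
    by_contra! h
    exact hlt (rank_le fun t ht => Nat.lt_succ_iff.1 (Nat.lt_of_not_le fun hle => h t hle ht))
  let u : Fin (d / 2 + 1) → M := fun i => t.equivFin.symm (Fin.castLE ht i)
  have hu : LinearIndependent K u :=
    hti.comp _ (t.equivFin.symm.injective.comp (Fin.castLE_injective ht))
  let v : ℕ → M := fun i => if h : i < d / 2 + 1 then u ⟨i, h⟩ else 0
  let ι : R →+* Module.End K M := Module.toModuleEnd K (S := R) M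
  let S := Algebra.adjoin K (Set.range ι)
  have hι : ∀ r, ι r ∈ S := fun r => Algebra.subset_adjoin ⟨r, rfl⟩
  have hSspan : ∀ s : S, (s : Module.End K M) ∈ Submodule.span K (Set.range ι) := fun s => by
    have hsub : (Submonoid.closure (Set.range ι) : Set (Module.End K M)) ⊆
        Submodule.span K (Set.range ι) := by
      rw [show Set.range ι = (MonoidHom.mrange ι.toMonoidHom : Set _) from rfl,
        Submonoid.closure_eq]
      exact Submodule.subset_span
    rw [← Algebra.adjoin_eq_span_of_subset K hsub]
    exact s.2
  have : IsSimpleModule S M := by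
    have := IsSimpleModule.nontrivial R M
    refine isSimpleModule_iff_toSpanSingleton_surjective.2 ⟨this, fun m hm m' => ?_⟩
    obtain ⟨r, hr⟩ := IsSimpleModule.toSpanSingleton_surjective R hm m'
    exact ⟨⟨ι r, hι r⟩, hr⟩
  refine not_multilinearIdentity_of_dense
    (fun σ => (⟨ι (algebraMap F R (a σ)), hι _⟩ : S)) v (fun w => ?_) (σ₀ := σ₀) ?_ fun x => ?_
  · let b := Module.Basis.sumExtend hu
    let g : M →ₗ[K] M := b.constr K (Sum.elim (fun i => w i) fun _ => 0)
    have hg : ∀ i (h : i < d / 2 + 1), g (u ⟨i, h⟩) = w i := fun i h => by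
      rw [show u ⟨i, h⟩ = b (Sum.inl ⟨i, h⟩) by simp [b, Module.Basis.sumExtend]; rfl,
        Module.Basis.constr_basis]
      rfl
    let G : Module.End (Module.End S M) M :=
      { toFun := g
        map_add' := g.map_add
        map_smul' := fun f m => by
          have hfK : ∀ (k : K) x, f (k • x) = k • f x := fun k x => by
            have := f.map_smul (⟨algebraMap K _ k, S.algebraMap_mem k⟩ : S) x
            exact this
          obtain ⟨k, hk⟩ := hmax
            { toFun := f
              map_add' := f.map_add
              map_smul' := fun r x => f.map_smul (⟨ι r, hι r⟩ : S) x } hfK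
          change g (f m) = f (g m)
          have hk : ∀ y, f y = k • y := hk
          rw [hk, hk, map_smul] }
    obtain ⟨s, hs⟩ := jacobson_density G ((Finset.range (d / 2 + 1)).image v)
    refine ⟨s, fun i hi => ?_⟩
    rw [← hs (v i) (Finset.mem_image_of_mem v (Finset.mem_range.2 (by omega)))]
    change g (v i) = w i
    rw [show v i = u ⟨i, by omega⟩ from dif_pos _, hg]
  · change algebraMap F R (a σ₀) • v 0 ≠ 0
    rw [show v 0 = u ⟨0, by omega⟩ from dif_pos _]
    exact fun h => hu.ne_zero _ ((ha.map (algebraMap F R)).smul_eq_zero.1 h)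
  · refine Subtype.ext ?_
    simp only [AddSubmonoidClass.coe_finsetSum, MulMemClass.coe_mul, SubmonoidClass.coe_list_prod,
      List.map_ofFn, ZeroMemClass.coe_zero, Function.comp_def]
    refine identity_span _ (Set.range ι) (fun y hy => ?_) (fun i => x i) fun i => hSspan (x i)
    choose z hz using hy
    have h := congrArg ι (hid z)
    simp only [map_sum, map_zero, Algebra.smul_def, map_mul, map_list_prod, List.map_ofFn,
      Function.comp_def, hz] at h
    exact h

include K in
/-- The algebra is a simple ring and finite over its centre. -/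
theorem isSimpleRing_and_finrank_center_le (hid : IsMultilinearIdentity R a) {σ₀ : Perm (Fin d)}
    (ha : IsUnit (a σ₀))
    (hmax : ∀ f : M →ₗ[R] M, (∀ (k : K) m, f (k • m) = k • f m) → ∃ k : K, ∀ m, f m = k • m) :
    IsSimpleRing R ∧ Module.Finite (Subring.center R) R ∧
      Module.finrank (Subring.center R) R ≤ (d / 2) ^ 2 := by
  classical
  obtain ⟨hKfin, hKrank⟩ := finite_and_finrank_le hid ha hmax
  have := IsSimpleModule.nontrivial R M
  -- the commutant is a division ring over which the module is finite
  let D := Module.End R M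
  let ε : K →+* D :=
    { toFun := fun k => DistribSMul.toLinearMap R M k
      map_one' := LinearMap.ext fun m => one_smul K m
      map_mul' := fun k l => LinearMap.ext fun m => mul_smul k l m
      map_zero' := LinearMap.ext fun m => zero_smul K m
      map_add' := fun k l => LinearMap.ext fun m => add_smul k l m }
  let : DivisionRing D := Module.End.instDivisionRing
  let : Module K D := Module.compHom D ε
  have : IsScalarTower K D M := ⟨fun k f m => rfl⟩
  have : Module.Finite D M := Module.Finite.of_restrictScalars_finite K D M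
  have hnt : Nontrivial R := ⟨⟨0, 1, fun h => by
    obtain ⟨m, hm⟩ := exists_ne (0 : M)
    exact hm (by rw [← one_smul R m, ← h, zero_smul])⟩⟩
  have hsimple : IsSimpleRing R := by
    refine IsSimpleRing.of_eq_bot_or_eq_top fun I => or_iff_not_imp_left.2 fun hI => ?_
    obtain ⟨x, hx, hx0⟩ : ∃ x ∈ I, x ≠ 0 := by
      by_contra! h
      exact hI (eq_bot_iff.2 fun y hy => by simp [h y hy])
    obtain ⟨v, hv⟩ : ∃ v : M, x • v ≠ 0 := by
      by_contra! h
      exact hx0 (FaithfulSMul.eq_of_smul_eq_smul fun m => by rw [h, zero_smul])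
    let e := Module.finBasis D M
    have hdens : ∀ w : Fin (Module.finrank D M) → M, ∃ r : R, ∀ i, r • e i = w i := fun w => by
      obtain ⟨r, hr⟩ := jacobson_density (e.constr ℕ w) (Finset.univ.image e)
      exact ⟨r, fun i => by rw [← hr _ (Finset.mem_image_of_mem e (Finset.mem_univ i)),
        Module.Basis.constr_basis]⟩
    choose p hp using fun i => IsSimpleModule.toSpanSingleton_surjective R hv (e i)
    choose q hq using fun i => hdens (Pi.single i v)
    have h1 : ∑ i, p i * x * q i = 1 := by
      refine FaithfulSMul.eq_of_smul_eq_smul fun m : M => ?_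
      rw [one_smul]
      have hm : m ∈ Submodule.span D (Set.range e) := e.span_eq ▸ Submodule.mem_top
      induction hm using Submodule.span_induction with
      | mem z hz =>
        obtain ⟨j, rfl⟩ := hz
        rw [Finset.sum_smul, Finset.sum_eq_single j (fun i _ hij => ?_) (by simp)]
        · rw [mul_smul, mul_smul, hq, Pi.single_eq_same]
          exact hp j
        · rw [mul_smul, hq, Pi.single_eq_of_ne (Ne.symm hij), smul_zero]
      | zero => rw [smul_zero]
      | add z w _ _ hz hw => rw [smul_add, hz, hw]
      | smul f z _ hz =>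
        change (∑ i, p i * x * q i) • f z = f z
        rw [← f.map_smul, hz]
    refine (TwoSidedIdeal.one_mem_iff I).1 (h1 ▸ ?_)
    exact sum_mem fun i _ => I.mul_mem_right _ _ (I.mul_mem_left _ _ hx)
  refine ⟨hsimple, ?_⟩
  -- the centre acts by scalars in `K`
  let : Field (Subring.center R) := (IsSimpleRing.isField_center R).toField
  have hcen : ∀ z : Subring.center R, ∃ k : K, ∀ m : M, (z : R) • m = k • m := fun z =>
    hmax { toFun := fun m => (z : R) • m
           map_add' := smul_add _
           map_smul' := fun r m => by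
             simp only [RingHom.id_apply, smul_smul, Subring.mem_center_iff.1 z.2 r] }
      fun k m => smul_comm _ _ _
  choose χ hχ using hcen
  obtain ⟨m₀, hm₀⟩ := exists_ne (0 : M)
  have hinjK : ∀ k l : K, k • m₀ = l • m₀ → k = l := fun k l h => smul_left_injective K hm₀ h
  let χ' : Subring.center R →+* K :=
    { toFun := χ
      map_one' := hinjK _ _ (by rw [← hχ]; simp)
      map_mul' := fun z w => hinjK _ _ (by rw [← hχ, mul_smul (χ z), ← hχ, ← hχ]; simp [mul_smul])
      map_zero' := hinjK _ _ (by rw [← hχ]; simp)
      map_add' := fun z w => hinjK _ _ (by rw [← hχ, add_smul, ← hχ, ← hχ]; simp [add_smul]) }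
  let : Algebra (Subring.center R) K := χ'.toAlgebra
  let ι : R →+* Module.End K M := Module.toModuleEnd K (S := R) M
  have hmin : ∀ (q : ℕ) (b : Fin q → K), LinearIndependent (Subring.center R) b →
      ∀ s : Finset (Fin q), ∀ y : Fin q → R, (∀ i ∉ s, y i = 0) →
        ∑ i, b i • ι (y i) = 0 → y = 0 := by
    intro q b hb s
    induction s using Finset.strongInduction with
    | H s ih =>
      intro y hys hy
      by_contra hy0
      obtain ⟨i, hi⟩ : ∃ i, y i ≠ 0 := by
        by_contra! h
        exact hy0 (funext h)
      have his : i ∈ s := by_contra fun h => hi (hys i h)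
      let W : AddSubgroup (Fin q → R) :=
        { carrier := {y | (∀ i ∉ s, y i = 0) ∧ ∑ i, b i • ι (y i) = 0}
          add_mem' := fun h h' => ⟨fun j hj => by simp [h.1 j hj, h'.1 j hj],
            by simp [Finset.sum_add_distrib, h.2, h'.2]⟩
          zero_mem' := by simp
          neg_mem' := fun h => ⟨fun j hj => by simp [h.1 j hj], by simp [h.2]⟩ }
      let J : TwoSidedIdeal R := TwoSidedIdeal.mk' {r | ∃ y ∈ W, y i = r}
        ⟨0, W.zero_mem, rfl⟩
        (by rintro _ _ ⟨y, hy, rfl⟩ ⟨z, hz, rfl⟩; exact ⟨y + z, W.add_mem hy hz, rfl⟩)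
        (by rintro _ ⟨y, hy, rfl⟩; exact ⟨-y, W.neg_mem hy, rfl⟩)
        (by
          rintro r _ ⟨y, hy, rfl⟩
          refine ⟨fun j => r * y j, ⟨fun j hj => by simp [hy.1 j hj], ?_⟩, rfl⟩
          simp only [map_mul, ← mul_smul_comm, ← Finset.mul_sum, hy.2, mul_zero])
        (by
          rintro _ r ⟨y, hy, rfl⟩
          refine ⟨fun j => y j * r, ⟨fun j hj => by simp [hy.1 j hj], ?_⟩, rfl⟩
          simp only [map_mul, ← smul_mul_assoc, ← Finset.sum_mul, hy.2, zero_mul])
      have hmem : y i ∈ J := (TwoSidedIdeal.mem_mk' _ _ _ _ _ _ _).2 ⟨y, ⟨hys, hy⟩, rfl⟩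
      obtain ⟨z, ⟨hzs, hz⟩, hzi⟩ := (TwoSidedIdeal.mem_mk' _ _ _ _ _ _ _).1
        (IsSimpleRing.one_mem_of_ne_zero_mem J hi hmem)
      have hcz : ∀ j, z j ∈ Subring.center R := fun j => Subring.mem_center_iff.2 fun r => by
        refine sub_eq_zero.1 (congrFun (ih (s.erase i) (Finset.erase_ssubset his)
          (fun l => r * z l - z l * r) (fun l hl => ?_) ?_) j)
        · rcases eq_or_ne l i with rfl | hli
          · simp [hzi]
          · simp [hzs l fun h => hl (Finset.mem_erase.2 ⟨hli, h⟩)]
        · simp only [map_sub, map_mul, smul_sub, Finset.sum_sub_distrib]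
          rw [show ∑ l, b l • (ι r * ι (z l)) = ι r * ∑ l, b l • ι (z l) by simp [Finset.mul_sum],
            show ∑ l, b l • (ι (z l) * ι r) = (∑ l, b l • ι (z l)) * ι r by
              simp [Finset.sum_mul], hz]
          simp
      have hrel : ∑ j, (⟨z j, hcz j⟩ : Subring.center R) • b j = 0 := by
        refine hinjK _ _ ?_
        have h2 := LinearMap.congr_fun hz m₀
        simp only [LinearMap.coe_sum, Finset.sum_apply, LinearMap.smul_apply,
          LinearMap.zero_apply] at h2
        rw [zero_smul, Finset.sum_smul, ← h2]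
        refine Finset.sum_congr rfl fun j _ => ?_
        rw [Algebra.smul_def, mul_comm, mul_smul]
        exact congrArg (b j • ·) (hχ ⟨z j, hcz j⟩ m₀).symm
      have h0 := Fintype.linearIndependent_iff.1 hb _ hrel i
      exact one_ne_zero (hzi.symm.trans (congrArg Subtype.val h0))
  have hbound : Module.rank (Subring.center R) R ≤ ((d / 2) ^ 2 : ℕ) := by
    refine rank_le fun t ht => ?_
    have hlin : LinearIndependent K fun r : t => ι r := by
      refine Fintype.linearIndependent_iff.2 fun k hk r => ?_
      let W := Submodule.span (Subring.center R) (Set.range k)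
      have : Module.Finite (Subring.center R) W :=
        Module.Finite.span_of_finite _ (Set.finite_range k)
      let bW := Module.finBasis (Subring.center R) W
      let c : t → Fin _ → Subring.center R := fun r j =>
        bW.repr ⟨k r, Submodule.subset_span ⟨r, rfl⟩⟩ j
      have hexp : ∀ r, k r = ∑ j, c r j • (bW j : K) := fun r => by
        have := congrArg Subtype.val
          (bW.sum_repr ⟨k r, Submodule.subset_span ⟨r, rfl⟩⟩).symm
        simp only [AddSubmonoidClass.coe_finsetSum, SetLike.val_smul] at this
        exact this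
      have hy : (fun j => ∑ r : t, c r j • (r : R)) = 0 := by
        refine hmin _ (fun j => (bW j : K)) (bW.linearIndependent.map' W.subtype
          (Submodule.ker_subtype W)) Finset.univ _ (by simp) ?_
        rw [← hk]
        simp only [hexp, Finset.sum_smul, map_sum, Finset.smul_sum]
        rw [Finset.sum_comm]
        refine Finset.sum_congr rfl fun r _ => Finset.sum_congr rfl fun j _ => ?_
        refine LinearMap.ext fun m => ?_
        change (bW j : K) • ((c r j : R) * (r : R)) • m = (χ (c r j) * (bW j : K)) • (r : R) • m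
        rw [mul_smul (c r j : R), hχ, smul_smul, mul_comm]
      have hc : ∀ j, c r j = 0 := fun j =>
        Fintype.linearIndependent_iff.1 ht (fun r => c r j) (congrFun hy j) r
      rw [hexp r]
      simp [hc]
    have h := hlin.fintype_card_le_finrank
    rw [Fintype.card_coe, Module.finrank_linearMap] at h
    exact h.trans ((pow_two (Module.finrank K M)).symm.trans_le (Nat.pow_le_pow_left hKrank 2))
  have hfin : Module.Finite (Subring.center R) R :=
    Module.rank_lt_aleph0_iff.1 (hbound.trans_lt Cardinal.natCast_lt_aleph0)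
  exact ⟨hfin, Module.finrank_le_of_rank_le hbound⟩

end primitive

/-- **Kaplansky**: a primitive algebra with a multilinear identity of degree `d`. -/
theorem kaplansky_multilinear {F R M : Type*} [CommRing F] [Ring R] [Algebra F R] [AddCommGroup M]
    [Module R M] [IsSimpleModule R M] [FaithfulSMul R M] {d : ℕ} {a : Perm (Fin d) → F}
    (hid : IsMultilinearIdentity R a) {σ₀ : Perm (Fin d)} (ha : IsUnit (a σ₀)) :
    IsSimpleRing R ∧ Module.Finite (Subring.center R) R ∧
      Module.finrank (Subring.center R) R ≤ (d / 2) ^ 2 := by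
  classical
  obtain ⟨C, -, hC⟩ := zorn_subset_nonempty {C : Set (Module.End R M) | C.Pairwise Commute}
    (fun c hc hch _ => ⟨⋃₀ c, (Set.pairwise_sUnion hch.directedOn).2 hc,
      fun s hs => Set.subset_sUnion_of_mem hs⟩) ∅ (Set.pairwise_empty _)
  have hCC : ∀ f, (∀ g ∈ C, Commute g f) → f ∈ C := fun f hf =>
    hC.le_of_ge (Set.pairwise_insert.2 ⟨hC.prop, fun g hg _ => ⟨(hf g hg).symm, hf g hg⟩⟩)
      (Set.subset_insert f C) (Set.mem_insert f C)
  let K := Subring.centralizer C
  have hKC : ∀ f ∈ K, f ∈ C := fun f hf => hCC f fun g hg => hf g hg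
  let : DivisionRing (Module.End R M) := Module.End.instDivisionRing
  have hKfield : IsField K :=
    { exists_pair_ne := exists_pair_ne K
      mul_comm := fun f g => Subtype.ext
        (Subring.mem_centralizer_iff.1 g.2 f (hKC f f.2))
      mul_inv_cancel := fun {f} hf => ⟨⟨(f : Module.End R M)⁻¹,
        Set.inv_mem_centralizer₀ f.2⟩, Subtype.ext (mul_inv_cancel₀ (Subtype.coe_ne_coe.2 hf))⟩ }
  let : Field K := hKfield.toField
  have : SMulCommClass R K M := ⟨fun r k m => ((k : Module.End R M).map_smul r m).symm⟩
  have : SMulCommClass K R M := SMulCommClass.symm R K M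
  exact isSimpleRing_and_finrank_center_le (K := K) (M := M) hid ha fun f hf =>
    ⟨⟨f, Subring.mem_centralizer_iff.2 fun g hg => LinearMap.ext fun m =>
      (hf ⟨g, fun h hh => (eq_or_ne h g).elim (fun e => e ▸ rfl) (hC.prop hh hg)⟩ m).symm⟩,
      fun m => rfl⟩

/-- **Kaplansky**: a primitive algebra over a field with a polynomial identity of degree `d`. -/
theorem kaplansky_polynomial {F R M X : Type*} [Field F] [Ring R] [Algebra F R] [AddCommGroup M]
    [Module R M] [IsSimpleModule R M] [FaithfulSMul R M] (f : MonoidAlgebra F (FreeMonoid X))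
    (hf : f ≠ 0) {d : ℕ} (hdeg : ∀ w ∈ f.coeff.support, FreeMonoid.length w ≤ d)
    (hid : ∀ φ : X → R, MonoidAlgebra.lift F R (FreeMonoid X) (FreeMonoid.lift φ) f = 0) :
    IsSimpleRing R ∧ Module.Finite (Subring.center R) R ∧
      Module.finrank (Subring.center R) R ≤ (d / 2) ^ 2 := by
  obtain ⟨e, he, a, ha, hid'⟩ := exists_isMultilinearIdentity f hf hdeg hid
  obtain ⟨σ, hσ⟩ := Function.ne_iff.1 ha
  obtain ⟨h1, h2, h3⟩ := kaplansky_multilinear (M := M) hid' (isUnit_iff_ne_zero.2 hσ)
  exact ⟨h1, h2, h3.trans (Nat.pow_le_pow_left (Nat.div_le_div_right he) 2)⟩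

end Fermat.Agent.KaplanskyPI
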